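-- Statement S24: genus of the function field of X₀(N) over ℚbar = classical genus formula.
-- Program C (team effort; assembly helper12): Riemann-Hurwitz for j : X₀(N) → P¹.
import Fermat.Statements.S24
import Fermat.Agent.X0.S24PointsD
import Fermat.Agent.X0.RealizeData
import Fermat.Agent.X0.CuspExpand
import Fermat.Agent.X0.FFGenus
import Fermat.Agent.X0.CuspSurj
import Fermat.Agent.X0.CuspGood
import Fermat.Agent.X0.Degree
import Fermat.Agent.X0.PointSurjT

set_option autoImplicit false
open ModularCurve

namespace Fermat.Agent.S24

open Fermat.Agent.X0 in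
theorem result (N : ℕ) [NeZero N]
    [AlgebraicCurve.HasCanonicalDivisor (K := AlgebraicClosure ℚ) (F := ↥(ModularCurve.modularFunctionFieldBar N))] :
    (AlgebraicCurve.genus (AlgebraicClosure ℚ) ↥(ModularCurve.modularFunctionFieldBar N) : ℚ)
      = ModularCurve.genusFormula N := by
  have hx : FF.IsGen Kbar (jF N) := Degree.isGen_jF N (realizeData N) (cuspData N)
  have hfd : FiniteDimensional (IntermediateField.adjoin Kbar {jF N}) (FF N) := hx.finite
  have hdeg := Degree.finrank_adjoin N (realizeData N) (cuspData N)
  have hcard := Degree.card_eq_finrank_adjoin N (realizeData N) (cuspData N)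
  have hC := CuspGood.good (cuspData N)
  exact S24PointsD.genus_eq_genusFormula_of_surj (realizeData N) (cuspData N)
    (FFGenus.genusHyp hx) hdeg hC
    (fun z₀ c hc v hv =>
      PointSurjT.exists_pointPlaceD_eq (realizeData N) z₀ (cuspData N) c hc v hv)
    (fun v hv => CuspSurj.exists_cuspPlace_eq hC hcard v hv)

end Fermat.Agent.S24
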