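-- Statement S07: every weight-2 cusp form of level Gamma0(2) is zero.
-- Proof: the norm of a cusp form `f` down to level one (Mathlib's `ModularForm.norm`) is a
-- level-one form of weight `2 * [SL(2,Z) : Gamma0(2)] <= 8 < 12` which vanishes at infinity, hence
-- is a level-one cusp form of weight `< 12`, hence zero; and the norm vanishes only if `f` does.
import Fermat.Statements.S07

set_option autoImplicit false
open WeierstrassCurve WeierstrassCurve.Affine WeierstrassCurve.Affine.Point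
open CuspForm ModularFormClass UpperHalfPlane
open ModularForm

namespace Fermat.Agent.S07

open scoped MatrixGroups ModularForm
open Matrix.SpecialLinearGroup

section general

variable {𝒢 : Subgroup (GL (Fin 2) ℝ)} [𝒢.IsArithmetic] {k : ℤ}

/-- Each factor of the norm of a cusp form tends to zero at `i∞`. -/
theorem quotientFunc_isZeroAtImInfty (f : CuspForm 𝒢 k) (q : 𝒮ℒ ⧸ 𝒢.subgroupOf 𝒮ℒ) :
    IsZeroAtImInfty (SlashInvariantForm.quotientFunc f q) := by
  induction q using Quotient.inductionOn with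
  | h r =>
    obtain ⟨r, γ, rfl⟩ := r
    rw [SlashInvariantForm.quotientFunc_mk]
    have h := CuspFormClass.zero_at_infty_slash f γ⁻¹
    have e : (⇑f ∣[k] γ⁻¹) = (⇑f ∣[k] ((mapGL ℝ) γ)⁻¹) := by
      rw [← map_inv]; rfl
    rwa [e] at h

/-- The norm (to level one) of a cusp form tends to zero at `i∞`. -/
theorem norm_isZeroAtImInfty (f : CuspForm 𝒢 k) :
    IsZeroAtImInfty (ModularForm.norm 𝒮ℒ f) := by
  rw [ModularForm.coe_norm]
  let _ := Fintype.ofFinite (𝒮ℒ ⧸ 𝒢.subgroupOf 𝒮ℒ)
  rw [IsZeroAtImInfty, Filter.ZeroAtFilter]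
  have h0 : (0 : ℂ) = ∏ _q : 𝒮ℒ ⧸ 𝒢.subgroupOf 𝒮ℒ, (0 : ℂ) := by
    rw [Finset.prod_const, Finset.card_univ, zero_pow Fintype.card_ne_zero]
  rw [h0, Finset.prod_fn]
  exact tendsto_finsetProd _ fun q _ ↦ quotientFunc_isZeroAtImInfty f q

/-- The constant term of the `q`-expansion of the norm of a cusp form vanishes. -/
theorem norm_coeff_zero (f : CuspForm 𝒢 k) :
    (qExpansion 1 (ModularForm.norm 𝒮ℒ f)).coeff 0 = 0 := by
  rw [qExpansion_coeff_zero one_pos
    (ModularFormClass.analyticAt_cuspFunction_zero _ one_pos one_mem_strictPeriods_SL)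
    (SlashInvariantFormClass.periodic_comp_ofComplex _ one_mem_strictPeriods_SL)]
  exact (norm_isZeroAtImInfty f).valueAtInfty_eq_zero

/-- A cusp form of weight `k` for an arithmetic group of index `d` in `SL(2,ℤ)` with
`k * d < 12` vanishes. -/
theorem eq_zero_of_weight_mul_index_lt (f : CuspForm 𝒢 k)
    (hk : k * Nat.card (𝒮ℒ ⧸ 𝒢.subgroupOf 𝒮ℒ) < 12) : f = 0 := by
  have h1 : ModularForm.toCuspForm (ModularForm.norm 𝒮ℒ f) (norm_coeff_zero f) = 0 :=
    rank_zero_iff_forall_zero.mp (CuspForm.rank_eq_zero_of_weight_lt_twelve hk) _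
  have h2 : ModularForm.norm 𝒮ℒ f = 0 := by
    ext z
    simpa using DFunLike.congr_fun h1 z
  have h3 := (ModularForm.norm_eq_zero_iff 𝒮ℒ f).mp h2
  exact DFunLike.coe_injective h3

end general

theorem card_quotient_eq_index (Γ : Subgroup SL(2, ℤ)) :
    Nat.card (𝒮ℒ ⧸ (Γ : Subgroup (GL (Fin 2) ℝ)).subgroupOf 𝒮ℒ) = Γ.index := by
  change (Subgroup.map (mapGL ℝ) Γ).relIndex 𝒮ℒ = Γ.index
  rw [MonoidHom.range_eq_map, Subgroup.relIndex_map_map_of_injective _ _ mapGL_injective,
    Subgroup.relIndex_top_right]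

theorem index_le_card_of_forall {G α : Type*} [Group G] [Finite α] (H : Subgroup G) (φ : G → α)
    (h : ∀ a b, φ a = φ b → a⁻¹ * b ∈ H) : H.index ≤ Nat.card α := by
  refine Nat.card_le_card_of_injective (fun q : G ⧸ H ↦ φ q.out) ?_
  intro q q' hq
  have := h _ _ hq
  rw [← QuotientGroup.eq] at this
  simpa using this

/-- The index of `Gamma0(2)` in `SL(2,ℤ)` is at most `4` (it is in fact `3`): the left coset of
`A` is determined by the first column of `A` modulo `2`. -/
theorem Gamma0_two_index_le : (CongruenceSubgroup.Gamma0 2).index ≤ 4 := by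
  have := index_le_card_of_forall (CongruenceSubgroup.Gamma0 2)
    (fun A : SL(2, ℤ) ↦ (((A 0 0 : ℤ) : ZMod 2), ((A 1 0 : ℤ) : ZMod 2))) ?_
  · simpa using this
  · intro A B hAB
    rw [CongruenceSubgroup.Gamma0_mem]
    simp only [Prod.mk.injEq] at hAB
    obtain ⟨h0, h1⟩ := hAB
    have : (A⁻¹ * B) 1 0 = - A 1 0 * B 0 0 + A 0 0 * B 1 0 := by
      simp [Matrix.SpecialLinearGroup.coe_inv, Matrix.adjugate_fin_two, Matrix.mul_apply,
        Fin.sum_univ_two]
    rw [this]; push_cast; rw [h0, h1]; ring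

theorem result (f : CuspForm (CongruenceSubgroup.Gamma0 2) 2) : f = 0 := by
  apply eq_zero_of_weight_mul_index_lt
  rw [card_quotient_eq_index]
  have := Gamma0_two_index_le
  omega

end Fermat.Agent.S07
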