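import Fermat.Statements.S22
import Fermat.Agent.S22.Trivial
import Fermat.Agent.S22.LatticeAlgebra
import Fermat.Agent.S22.HeckeStableU19
import Fermat.Agent.S22.Separation

set_option autoImplicit false
open CuspForm

namespace Fermat.Agent.S22

theorem result (N : ℕ) [NeZero N] (k : ℤ) (S : Set ℕ) :
    Module.Finite ℤ (CuspForm.heckeAlgebra N k S) := by
  rcases le_or_gt k 1 with hk | hk
  · refine heckeAlgebra_finite_of_trivial_weight N k S ?_
    rcases eq_or_lt_of_le hk with rfl | h1
    · exact Or.inr odd_one
    · exact Or.inl (by omega)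
  · obtain ⟨n, rfl⟩ : ∃ n : ℕ, k = (n : ℤ) + 2 := ⟨(k - 2).toNat, by omega⟩
    exact finite_adjoin_of_lattice (CuspForm.heckeGenerators N ((n : ℤ) + 2) S) (periodLattice N n)
      (periodLattice_fg N n) (periodLattice_stable N n S) (periodLattice_separating N n)

end Fermat.Agent.S22
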