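-- Statement S23: S₂(Γ₀(N)) has an integral structure.
-- Program C (team effort; assembly helper19): regular differentials `h dj` of `X₀(N)/ℚbar`
-- ⇒ cusp forms with `q`-expansion `ι(h θj)` (LOW, helper16/23/24), Galois descent of the
-- finite-dimensional space of their `q`-expansions (helper3/helper19), dimension count
-- (Riemann–Roch: helper4 and the C-RR team; S24; upper bound of S20: helper26/helper1/helper2),
-- bounded denominators from S22 (helper15).
import Fermat.Statements.S23
import Fermat.Agent.S23.PreAssembly
import Fermat.Agent.S23.BoundedDenom15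
import Fermat.Agent.S23.DescentX0
import Fermat.Agent.S20.Low
import Fermat.Agent.S21.Assembly
import Fermat.Agent.S24
import Fermat.Agent.RR.InstPrep
import Fermat.Agent.RR.GlobAdele
import Fermat.Agent.X0.HasCanDivInst

set_option autoImplicit false
set_option synthInstance.maxHeartbeats 400000
set_option linter.style.haveILetI false
open CuspForm

namespace Fermat.Agent.S23

open Fermat.Agent.X0 Fermat.Agent.RR AlgebraicCurve in
theorem result (N : ℕ) [NeZero N] : CuspForm.HasIntegralStructure N 2 := by
  have hx : FF.IsGen Kbar (jF N) := HasCanDivInst.isGen N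
  haveI : HasCanonicalDivisor (K := Kbar) (F := FF N) := HasCanDivInst.hasCanonicalDivisor N
  haveI : FiniteDimensional ℂ (CuspForm (CongruenceSubgroup.Gamma0 N) 2) :=
    Fermat.Agent.S21.Assembly.finite_cusp N
  haveI : FiniteDimensional Kbar (riemannRochSpace (canonicalDivisorOf (FF.D_ne_zero hx))) :=
    InstPrep.finiteDimensional_L_isGen hx _
  have hgenus := InstPrep.finrank_L_dx_eq_genus hx (GlobAdele.dualityResidueData hx)
  have hS24 := Fermat.Agent.S24.result N
  have hup := Fermat.Agent.S21.Assembly.finrank_le_genusFormula N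
  have hdim : Module.finrank ℂ (CuspForm (CongruenceSubgroup.Gamma0 N) 2)
      ≤ Module.finrank Kbar (riemannRochSpace (canonicalDivisorOf (FF.D_ne_zero hx))) := by
    rw [hgenus]
    have : (Module.finrank ℂ (CuspForm (CongruenceSubgroup.Gamma0 N) 2) : ℚ)
        ≤ (genus Kbar (FF N) : ℚ) := by
      rw [hS24]; exact hup
    exact_mod_cast this
  refine PreAssembly.hasIntegralStructure_of_fixed hx (canonicalDivisorOf (FF.D_ne_zero hx))
    (fun v => canonicalDivisorOf_apply (FF.D_ne_zero hx) v)
    Fermat.Agent.S20.LowDJ.thetaJ Fermat.Agent.S20.LowDJ.thetaJ_ne_zero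
    (fun σ => DescentX0.coeffMap_thetaJ σ) ?_ hdim
    (fun f hf => BoundedDenom15.mem_span_intLattice_of_ratCoeff f hf)
  intro h hreg
  obtain ⟨f, hf, hneg⟩ := Fermat.Agent.S20.Low.exists_cuspForm_of_regular_full N h hreg
  exact ⟨hneg, f, hf⟩

end Fermat.Agent.S23
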