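-- Statement S55 (row 49): Poitou–Tate duality, Ш¹_S(M^∨(1)) × Ш²_S(M) perfect (p odd).
-- Program F (all 29 seats): chapters LOC (local class field theory), FG (class formations, Tate–Nakayama),
-- GLOB (global p-class formation for ℚ_S: fundamental classes, reciprocity, local injectivity),
-- GLUE (limit modules E_S, I_S, C_S), PRO (hypercohomology duality, final count), BR (bridge to Ш).
-- Final assembly: `PT/PRO/MainFinal4.s55_of_inputs` with the three last inputs
-- (L1) `LocalInjMain14.localInjectivity`, (S1)/(S2h) `LocHyperFinal13.s1At / s2hAt`.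
import Fermat.Statements.S55
import Fermat.Agent.PT.PRO.MainFinal4
import Fermat.Agent.PT.GLOB.LocalInjMain14
import Fermat.Agent.PT.GLUE.LocHyperFinal13

set_option autoImplicit false
set_option autoImplicit false
open CategoryTheory Module groupCohomology ExtCitation
open groupCohomology

namespace Fermat.Agent.S55

theorem result
    {p : ℕ} [Fact p.Prime] (hp2 : p ≠ 2) (S : Finset Nat.Primes) (hpS : pPrime p ∈ S)
    (M : Rep (ZMod p) (AlgebraicClosure ℚ ≃ₐ[ℚ] AlgebraicClosure ℚ))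
    [FiniteDimensional (ZMod p) M]
    (hsm : ∀ m : M, ∃ F : IntermediateField ℚ (AlgebraicClosure ℚ), FiniteDimensional ℚ F ∧
      ∀ s ∈ F.fixingSubgroup, M.ρ s m = m)
    (hMur : ∀ q : Nat.Primes, q ∉ S → ∀ A : ValuationSubring (AlgebraicClosure ℚ),
      A.LiesOverPrime (q : ℕ) → ∀ g ∈ A.inertiaSubgroupIn ℚ, M.ρ g = 1) :
    ∃ B : sha₁ S (M.dualTwist (cycloChar p)) →ₗ[ZMod p] sha₂ S M →ₗ[ZMod p] ZMod p,
      (∀ y, (∀ x, B y x = 0) → y = 0) ∧ (∀ x, (∀ y, B y x = 0) → x = 0) := by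
  classical
  exact Fermat.Agent.PT.PRO.MainFinal4.s55_of_inputs hp2 S hpS M hsm hMur
    (Fermat.Agent.PT.GLOB.LocalInjMain14.localInjectivity p S)
    (fun A _ h0 q => Fermat.Agent.PT.GLUE.LocHyperFinal13.s1At S _ _ _ _ _ _ _ h0)
    (fun A _ h0 q => Fermat.Agent.PT.GLUE.LocHyperFinal13.s2hAt S _ _ _ _ _ _ _ h0)

end Fermat.Agent.S55
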