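-- Statement S02: a counterexample to Fermat for a prime exponent at least five yields a Frey package.
import Fermat.Statements.S02

set_option autoImplicit false
open FreyPackage

namespace Fermat.Agent.S02

theorem zmod4_of_emod (a : ℤ) (h : a % 4 = 3) : (a : ZMod 4) = 3 := by
  have h4 : ((4 : ℕ) : ℤ) = 4 := rfl
  have : ((a % ((4 : ℕ) : ℤ) : ℤ) : ZMod 4) = (a : ZMod 4) := ZMod.intCast_mod a 4
  rw [← this, h4, h]; rfl

theorem zmod2_of_dvd (b : ℤ) (h : (2 : ℤ) ∣ b) : (b : ZMod 2) = 0 :=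
  (ZMod.intCast_zmod_eq_zero_iff_dvd b 2).2 h

theorem gcd_eq_one_of_isCoprime (a b : ℤ) (h : IsCoprime a b) : gcd a b = 1 := by
  rw [← Int.coe_gcd, Int.isCoprime_iff_gcd_eq_one.1 h]; rfl

theorem isCoprime_of_gcd_eq_one (a b : ℤ) (h : gcd a b = 1) : IsCoprime a b := by
  rw [← Int.coe_gcd] at h
  exact Int.isCoprime_iff_gcd_eq_one.2 (by exact_mod_cast h)

/-- Core case: coprime, `b` even. -/
theorem of_coprime_b_even (a b c : ℤ) (ha : a ≠ 0) (hb : b ≠ 0) (hc : c ≠ 0) (p : ℕ)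
    (pp : p.Prime) (hp5 : 5 ≤ p) (H : a ^ p + b ^ p = c ^ p) (hab : IsCoprime a b)
    (hb2 : (2 : ℤ) ∣ b) : Nonempty FreyPackage := by
  have hpodd : Odd p := pp.odd_of_ne_two (by omega)
  have ha_odd : ¬ (2 : ℤ) ∣ a := by
    intro h2a
    have := hab.isUnit_of_dvd' h2a hb2
    rw [Int.isUnit_iff] at this
    omega
  have h13 : a % 4 = 1 ∨ a % 4 = 3 := by omega
  rcases h13 with h1 | h3
  · refine ⟨⟨-a, -b, -c, neg_ne_zero.2 ha, neg_ne_zero.2 hb, neg_ne_zero.2 hc, p, pp, hp5,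
      ?_, ?_, ?_, ?_⟩⟩
    · rw [hpodd.neg_pow, hpodd.neg_pow, hpodd.neg_pow, ← H]; ring
    · exact gcd_eq_one_of_isCoprime _ _ hab.neg_neg
    · apply zmod4_of_emod; omega
    · apply zmod2_of_dvd; exact (dvd_neg).2 hb2
  · exact ⟨⟨a, b, c, ha, hb, hc, p, pp, hp5, H, gcd_eq_one_of_isCoprime _ _ hab,
      zmod4_of_emod a h3, zmod2_of_dvd b hb2⟩⟩

/-- Coprime case. -/
theorem of_coprime (a b c : ℤ) (ha : a ≠ 0) (hb : b ≠ 0) (hc : c ≠ 0) (p : ℕ)
    (pp : p.Prime) (hp5 : 5 ≤ p) (H : a ^ p + b ^ p = c ^ p) (hab : IsCoprime a b) :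
    Nonempty FreyPackage := by
  have hpodd : Odd p := pp.odd_of_ne_two (by omega)
  have hp0 : p ≠ 0 := by omega
  by_cases hb2 : (2 : ℤ) ∣ b
  · exact of_coprime_b_even a b c ha hb hc p pp hp5 H hab hb2
  by_cases ha2 : (2 : ℤ) ∣ a
  · exact of_coprime_b_even b a c hb ha hc p pp hp5 (by rw [add_comm]; exact H) hab.symm ha2
  -- both odd, so `c` is even
  have hc2 : (2 : ℤ) ∣ c := by
    have hap : ¬ (2 : ℤ) ∣ a ^ p := fun h => ha2 (Int.prime_two.dvd_of_dvd_pow h)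
    have hbp : ¬ (2 : ℤ) ∣ b ^ p := fun h => hb2 (Int.prime_two.dvd_of_dvd_pow h)
    have : (2 : ℤ) ∣ c ^ p := by rw [← H]; omega
    exact Int.prime_two.dvd_of_dvd_pow this
  -- `a^p + (-c)^p = (-b)^p`
  have hac : IsCoprime a c := by
    have : IsCoprime (a ^ p) (c ^ p) := by
      rw [← H, add_comm]
      have h := (IsCoprime.pow (m := p) (n := p) hab).add_mul_left_right 1
      rwa [mul_one] at h
    exact (IsCoprime.pow_iff (Nat.pos_of_ne_zero hp0) (Nat.pos_of_ne_zero hp0)).1 this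
  refine of_coprime_b_even a (-c) (-b) ha (neg_ne_zero.2 hc) (neg_ne_zero.2 hb) p pp hp5 ?_
    hac.neg_right ((dvd_neg).2 hc2)
  rw [hpodd.neg_pow, hpodd.neg_pow, ← H]; ring

theorem result (a b c : ℤ) (ha : a ≠ 0) (hb : b ≠ 0) (hc : c ≠ 0) (p : ℕ) (pp : p.Prime) (hp5 : 5 ≤ p) (H : a ^ p + b ^ p = c ^ p) : Nonempty FreyPackage := by
  have hp0 : p ≠ 0 := by omega
  -- divide out by the gcd
  obtain ⟨a', b', ha', hb', hcop⟩ : ∃ a' b' : ℤ, a = a' * (Int.gcd a b : ℤ) ∧ b = b' * (Int.gcd a b : ℤ) ∧ IsCoprime a' b' := by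
    have hg : 0 < Int.gcd a b := Int.gcd_pos_of_ne_zero_left b ha
    obtain ⟨a', b', hcop, ha', hb'⟩ := Int.exists_gcd_one hg
    exact ⟨a', b', ha', hb', Int.isCoprime_iff_gcd_eq_one.2 hcop⟩
  set d : ℤ := (Int.gcd a b : ℤ) with hd
  have hd0 : d ≠ 0 := by
    intro h0; rw [h0, mul_zero] at ha'; exact ha ha'
  have hdc : d ∣ c := by
    have : d ^ p ∣ c ^ p := by
      rw [← H, ha', hb', mul_pow, mul_pow]
      exact dvd_add (dvd_mul_left _ _) (dvd_mul_left _ _)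
    exact (Int.pow_dvd_pow_iff hp0).1 this
  obtain ⟨c', hc'⟩ := hdc
  have ha'0 : a' ≠ 0 := by rintro rfl; rw [zero_mul] at ha'; exact ha ha'
  have hb'0 : b' ≠ 0 := by rintro rfl; rw [zero_mul] at hb'; exact hb hb'
  have hc'0 : c' ≠ 0 := by rintro rfl; rw [mul_zero] at hc'; exact hc hc'
  refine of_coprime a' b' c' ha'0 hb'0 hc'0 p pp hp5 ?_ hcop
  have hdp : d ^ p ≠ 0 := pow_ne_zero _ hd0
  apply mul_left_cancel₀ hdp
  rw [ha', hb', hc'] at H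
  rw [mul_add]
  calc d ^ p * a' ^ p + d ^ p * b' ^ p = (a' * d) ^ p + (b' * d) ^ p := by ring
    _ = (d * c') ^ p := H
    _ = d ^ p * c' ^ p := by ring

end Fermat.Agent.S02
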