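-- Statement S08: every weight-2 cusp form of level Gamma0(1) is zero.
-- Proof: Gamma0(1) is all of SL(2, Z), and Mathlib's level-one dimension results give
-- rank (CuspForm SL(2,Z) k) = 0 for k < 12.
import Fermat.Statements.S08

set_option autoImplicit false
open WeierstrassCurve WeierstrassCurve.Affine WeierstrassCurve.Affine.Point
open CuspForm ModularFormClass UpperHalfPlane
open ModularForm

namespace Fermat.Agent.S08

open scoped MatrixGroups in
theorem Gamma0_one_coe_eq_SL :
    ((CongruenceSubgroup.Gamma0 1 : Subgroup SL(2, ℤ)) : Subgroup (GL (Fin 2) ℝ)) = 𝒮ℒ := by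
  have h : CongruenceSubgroup.Gamma0 1 = ⊤ := by
    ext A
    simp [CongruenceSubgroup.Gamma0_mem, Subsingleton.elim (_ : ZMod 1) 0]
  rw [h, MonoidHom.range_eq_map]

theorem result (f : CuspForm (CongruenceSubgroup.Gamma0 1) 2) : f = 0 := by
  revert f
  rw [Gamma0_one_coe_eq_SL]
  exact rank_zero_iff_forall_zero.mp (CuspForm.rank_eq_zero_of_weight_lt_twelve (by norm_num))

end Fermat.Agent.S08
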