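import Fermat.Statements.S10
import Fermat.Agent.Kummer.Main

set_option autoImplicit false
open WeierstrassCurve WeierstrassCurve.Affine WeierstrassCurve.Affine.Point
open CuspForm ModularFormClass UpperHalfPlane
open FreyPackage

namespace Fermat.Agent.S10

theorem result (P : FreyPackage) (hp : P.p = 5 ∨ P.p = 7 ∨ P.p = 13) : ¬ HasGaloisStableCofixedLine (K := AlgebraicClosure ℚ) ℚ P.freyCurve P.p := by
  exfalso
  have h := P.hFLT
  rcases hp with hp | hp | hp <;> rw [hp] at h
  · exact Fermat.Agent.Kummer.int_ne_of_fermatLastTheoremFor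
      Fermat.Agent.Kummer.fermatLastTheoremFor_five P.ha0 P.hb0 P.hc0 h
  · exact Fermat.Agent.Kummer.int_ne_of_fermatLastTheoremFor
      Fermat.Agent.Kummer.fermatLastTheoremFor_seven P.ha0 P.hb0 P.hc0 h
  · exact Fermat.Agent.Kummer.int_ne_of_fermatLastTheoremFor
      Fermat.Agent.Kummer.fermatLastTheoremFor_thirteen P.ha0 P.hb0 P.hc0 h

end Fermat.Agent.S10
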