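-- S13 (Program A): a reducible mod-`p` representation of the Frey curve has a Galois-stable line
-- with trivial action on the quotient.  Assembly (helper26) of:
--   A1  division polynomials / torsion count  (DivPoly/*, helper2/3/4/17/22/27/29)
--   A2  local analysis at 2 + no rational p-torsion (Local2, RatTors2; helper13/15/16/25/1)
--   A3  local analysis at p (LocalP, FreyE1, Supersingular, AtPLin; helper10/15/25/28)
--   A4  no unramified extension of ℚ (UnramBridge; helper8/11)
--   A5  endgame (Endgame, RatBridge, FreyDelta; helper26), S05 (unramified at odd q ≠ p).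
import Fermat.Statements.S13
import Fermat.Agent.S13.Endgame
import Fermat.Agent.S13.RatBridge
import Fermat.Agent.S13.UnramMain
import Fermat.Agent.S13.UnramVal
import Fermat.Agent.S13.UnramBridge
import Fermat.Agent.DivPoly.Count
import Fermat.Agent.DivPoly.TorsionFinal
import Fermat.Agent.S05
import Fermat.Agent.S13.FreyDelta
import Fermat.Agent.S13.Local2
import Fermat.Agent.S13.LocalP
import Fermat.Agent.S13.RatTors2

set_option autoImplicit false
open WeierstrassCurve WeierstrassCurve.Affine WeierstrassCurve.Affine.Point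
open CuspForm ModularFormClass UpperHalfPlane
open FreyPackage

namespace Fermat.Agent.S13

theorem result (P : FreyPackage) (hred : ¬ GaloisRepIsIrreducible (K := AlgebraicClosure ℚ) ℚ P.freyCurve P.p) : HasGaloisStableCofixedLine (K := AlgebraicClosure ℚ) ℚ P.freyCurve P.p := by
  classical
  have hpp := P.pp
  have hoddp : Odd P.p := P.hp_odd
  -- A1b: the torsion criterion
  have htor : Fermat.Agent.DivPoly.Count.TorsionIff (P.freyCurve⁄(AlgebraicClosure ℚ)) P.p := by
    intro x y h
    convert Fermat.Agent.DivPoly.Torsion.torsionIff (P.freyCurve⁄(AlgebraicClosure ℚ)) hoddp x y h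
  have hA1b : ∀ (x y : AlgebraicClosure ℚ)
      (h : (P.freyCurve⁄(AlgebraicClosure ℚ)).Nonsingular x y),
      P.p • (Point.some x y h) = 0 ↔
        ((P.freyCurve⁄(AlgebraicClosure ℚ)).preΨ (P.p : ℤ)).eval x = 0 := by
    intro x y h
    convert Fermat.Agent.DivPoly.Torsion.nsmul_eq_zero_iff_preΨ h hoddp
  have hΔ : (P.freyCurve⁄(AlgebraicClosure ℚ)).Δ ≠ 0 :=
    FreyDelta.freyCurve_baseChange_Δ_ne_zero P (AlgebraicClosure ℚ)
  have hpF : ((P.p : ℕ) : AlgebraicClosure ℚ) ≠ 0 := by exact_mod_cast P.hp0
  -- A4: no everywhere unramified extension of ℚ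
  have bridge : Fermat.Agent.S13.UnramMain.Bridge := Fermat.Agent.S13.UnramBridge.bridge
  -- A1c: finiteness and count of the torsion
  have hfinV : Finite (Submodule.torsionBy ℤ (P.freyCurve⁄(AlgebraicClosure ℚ)).Point P.p) :=
    Fermat.Agent.DivPoly.Count.finite_torsionBy hoddp hpF htor
  have hcard :
      Nat.card (Submodule.torsionBy ℤ (P.freyCurve⁄(AlgebraicClosure ℚ)).Point P.p) ≤ P.p ^ 2 :=
    Fermat.Agent.DivPoly.Count.card_torsionBy_le hoddp hpF htor
  refine Endgame.cofixed_of_local P.freyCurve P.p hpp
    (Fermat.Agent.DivPoly.Count.exists_torsion_point (by have := P.hp5; omega) hpF hΔ htor)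
    (fun q hq => Fermat.Agent.S13.UnramVal.exists_liesOverPrime hq)
    (fun M hM hI σ => Fermat.Agent.S13.UnramMain.forall_smul_eq_of_inertia_of_bridge bridge hM hI σ)
    (fun M hM hI σ =>
      Fermat.Agent.S13.UnramMain.forall_smul_sub_mem_of_inertia_of_bridge bridge hM hI σ)
    (fun q hq hq2 hqp => Fermat.Agent.S05.result P hq hq2 hqp)
    (fun N hN hbot htop A hA => Fermat.Agent.S13.Local2.local_at_2 P hcard N hN hbot htop A hA)
    (fun N hN hbot htop A hA =>
      Fermat.Agent.S13.LocalP.local_at_p P hcard hA1b N hN hbot htop A hA)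
    (RatBridge.no_fixed_torsion_of_no_rational P.freyCurve P.p
      (fun x y h => Fermat.Agent.S13.RatTors2.no_rational_torsion_coord P x y h))
    hred

end Fermat.Agent.S13
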