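-- Statement S14 (row 13): `ExtCitation.ExtVanishingCts p` for every prime `p ≥ 3`.
-- Assembly via the class-field-theory line of Program E:
--   `S14/ReduceArt` (Translate + ArtinGlue + NSHypProof + StickAdapter15) reduces the statement
--   to `ArtinGlue.ARTHyp p`; `CFT/ArtinRecipInputs.artHyp_of` reduces that to the pair-crossing
--   input `PairCross.pairInput`, whose only hypothesis `PairCross.AuxChoice` is proved in
--   `CFT/AuxChoiceProof`.
import Fermat.Statements.S14
import Fermat.Agent.S14.ReduceArt
import Fermat.Agent.CFT.ArtinRecipInputs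
import Fermat.Agent.CFT.PairCross
import Fermat.Agent.CFT.AuxChoiceProof

set_option autoImplicit false
open ExtCitation

namespace Fermat.Agent.S14

theorem result {p : ℕ} [Fact p.Prime] (h3 : 3 ≤ p) :
    ExtCitation.ExtVanishingCts p := by
  have hp : p.Prime := Fact.out
  refine Fermat.Agent.S14.ReduceArt.extVanishingCts_of_art h3 ?_
  refine Fermat.Agent.CFT.ArtinRecipInputs.artHyp_of p hp h3 ?_
  intro K L _ _ _ _ _ _ _ _ hdeg hunr
  haveI : NumberField.IsTotallyComplex K :=
    Fermat.Agent.CFT.ArtinRecipInputs.isTotallyComplex_of_cyclotomic K p h3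
  exact Fermat.Agent.CFT.PairCross.pairInput K L
    Fermat.Agent.CFT.AuxChoiceProof.auxChoice hp hdeg hunr

end Fermat.Agent.S14
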