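-- Statement S20: dim S₂(Γ₀(N)) = genusFormula N.
-- Program C (team effort): upper bound = Eichler–Shimura injectivity + parabolic cohomology bound
-- (S21/Assembly, helper26 et al.); lower bound = Riemann–Roch on X₀(N) over ℚbar + the dictionary
-- "regular differentials ⇒ cusp forms" (S20/LowerBound).
import Fermat.Statements.S20
import Fermat.Agent.S21.Assembly
import Fermat.Agent.S20.LowerBound

set_option autoImplicit false
open CuspForm

namespace Fermat.Agent.S20

theorem result (N : ℕ) [NeZero N] :
    (Module.finrank ℂ (CuspForm (CongruenceSubgroup.Gamma0 N) 2) : ℚ) = ModularCurve.genusFormula N :=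
  Fermat.Agent.S21.Assembly.finrank_eq_of_le N
    (Fermat.Agent.S20.LowerBound.genusFormula_le_finrank N)

end Fermat.Agent.S20
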