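-- Statement S16 (row 15): Mazur's `#(𝕋/I) = (p - 1)/gcd(p - 1, 12)` at prime level.
-- The statement below is byte-identical to the frozen statement ModularCurve.FermatFrozen.S16
-- (Fermat/Statements/S16.lean).  Proof (Program M; S16_PROOF11.md, S16_UB_ELEM14.md, M_PLAN27.md):
-- duality `S(ℤ) ≅ Hom(𝕋, ℤ)` (A1, A3) reduces the index to congruences of forms with the Eisenstein
-- series; lower bound from the Eisenstein character on modular symbols (chapter B); upper bound from
-- the elementary non-existence statements (N_*) via the trace package, level-one norms and Sturm.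
import Fermat.Statements.S16
import Fermat.Agent.S16.Inputs12
import Fermat.Agent.S16.Adapters12
import Fermat.Agent.ES.S16.LowerBoundFinal19
import Fermat.Agent.S16.ExportPkg23
import Fermat.Agent.S16.NormExport29
import Fermat.Agent.S16.ExportDNorm11
import Fermat.Agent.S16.LocalData20
import Fermat.Agent.S16.Np14
import Fermat.Agent.S16.CasesA10
import Fermat.Agent.S16.CaseN3aOne4
import Fermat.Agent.S16.TwoB24
import Fermat.Agent.S16.CasesB2
import Fermat.Agent.S16.NormCases25
import Fermat.Agent.S16.CaseN2aFinal18

set_option autoImplicit false
open ModularCurve CuspForm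
open ModularCurve

namespace Fermat.Agent.S16

theorem result
    (p : ℕ) [Fact p.Prime] :
    Nat.card (↥(heckeLatticeAlgebra p ∅) ⧸
        Ideal.map ((latticeRestrictHom p ∅).toRingHom.comp (heckeEvalForms p 2))
          (eisensteinIdeal p)) =
      eisensteinNumerator p :=
  Inputs12.result_of_exports p
    (fun _ P hP => Fermat.Agent.ES.S16.LowerBoundFinal19.lower_bound p P hP)
    (Adapters12.a1Statement p) (Adapters12.a3Statement p)
    { pkg := ExportPkg23.export_Pkg
      norm4 := NormExport29.export_norm4
      norm6 := NormExport29.export_norm6
      norm6' := NormExport29.export_norm6'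
      dnorm := ExportDNorm11.export_dnorm
      localData := LocalData20.target_LocalData
      tNp := Np14.target_Np
      tA := CasesA10.target_Nl_A
      t3one := CaseN3aOne4.target_N3a_one
      t2b := TwoB24.target_N2b
      tB7 := CasesB2.target_Nl_B7
      tB5 := CasesB2.target_Nl_B5
      t3nine := NormCases25.target_N3a_nine
      t2a := CaseN2aFinal18.target_N2a }

end Fermat.Agent.S16
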