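-- Statement S18 (row 17): reduction mod ℓ is injective on the prime-to-ℓ torsion of J₀(N).
-- Program H (integrator helper4): chain TOP ⇐ LVL ⇐ DESC ⇐ CORE + MODEL (RED/ tree),
-- assembled in `RED/S18OfTargets4` + `RED/S18Exports4`.
import Fermat.Statements.S18
import Fermat.Agent.RED.S18Exports4

set_option autoImplicit false
open ModularCurve

namespace Fermat.Agent.S18

theorem result (N : ℕ) [NeZero N] {ℓ : ℕ}
    [Fact ℓ.Prime] (hℓN : ¬ ℓ ∣ N) (A : ValuationSubring (AlgebraicClosure ℚ)) (hA : A.LiesOverPrime ℓ)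
    (h : ModularCurve.ReductionInputsModL A N) (m : ℕ) (hm : ¬ ℓ ∣ m) (z : ModularCurve.JZero N)
    (hmz : m • z = 0) (hz : ModularCurve.reductionModL A N z = 0) :
    z = 0 :=
  Fermat.Agent.RED.S18Exports4.s18 N hℓN A hA h m hm z hmz hz

end Fermat.Agent.S18
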