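-- Statement S19 (row 18): for `ℓ ∤ p`, the Galois module `J₀(p)[ℓ^k]` is the group of `ℚ̄`-points of a
-- finite flat commutative Hopf algebra over `ℤ_(ℓ)` (Programme V, trunk of helper27, route of helper23).
-- The proof is `XiInstV29.s19_of` applied to the two chapter exits: (B1) `GenusLe12.genusLe` (the genus of
-- the generic fibre of the two-chart model of `X₀(M)` is at most the genus of its special fibre) and
-- (G3) `XiCInputV9.xiCInput` (the truncated formal group law computes the chart `Ξ` on the kernel of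
-- reduction); the formal funnel (charts ⇒ Galois-equivariant Hopf order ⇒ Hopf algebra) is `HgeoAsm21`.
import Fermat.Statements.S19
import Fermat.Agent.ES.V19.XiInstV29
import Fermat.Agent.ES.V19.GenusLe12
import Fermat.Agent.ES.V19.XiCInputV9

set_option autoImplicit false
open ModularCurve
open ModularCurve

namespace Fermat.Agent.S19

theorem result
    (p : ℕ) [NeZero p] (ℓ : ℕ) [Fact ℓ.Prime] (hℓp : ¬ ℓ ∣ p) (k : ℕ) :
    ∃ (H : Type) (_ : CommRing H) (_ : HopfAlgebra (GaloisRep.ratLocalizedAt ℓ) H),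
      Module.Finite (GaloisRep.ratLocalizedAt ℓ) H ∧ Module.Flat (GaloisRep.ratLocalizedAt ℓ) H ∧
      Coalgebra.IsCocomm (GaloisRep.ratLocalizedAt ℓ) H ∧
      ∃ e : WithConv (H →ₐ[GaloisRep.ratLocalizedAt ℓ] AlgebraicClosure ℚ) ≃
          ↥(Submodule.torsionBy ℤ (JZero p) ((ℓ : ℤ) ^ k)),
        (∀ f g, e (f * g) = e f + e g) ∧
        ∀ (σ : AlgebraicClosure ℚ ≃ₐ[ℚ] AlgebraicClosure ℚ)
          (f g : WithConv (H →ₐ[GaloisRep.ratLocalizedAt ℓ] AlgebraicClosure ℚ)),
          (∀ h : H, g h = σ (f h)) → ((e g : JZero p)) = σ • (e f : JZero p) :=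
  Fermat.Agent.ES.V19.XiInstV29.s19_of Fermat.Agent.ES.V19.GenusLe12.genusLe
    Fermat.Agent.ES.V19.XiCInputV9.xiCInput p ℓ hℓp k

end Fermat.Agent.S19
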