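-- Statement S21: Eichler–Shimura: the period pairing is injective with image the parabolic
-- homomorphisms.  Program C (team effort): S21/PeriodInj + S21/Parabolic + S21/ParBound
-- (S21/Assembly) and the lower bound S20/LowerBound.
import Fermat.Statements.S21
import Fermat.Agent.S21.Assembly
import Fermat.Agent.S20.LowerBound

set_option autoImplicit false
open ModularCurve

namespace Fermat.Agent.S21

theorem result (N : ℕ) [NeZero N] :
    Function.Injective (ModularCurve.periodHomPair N)
      ∧ LinearMap.range (ModularCurve.periodHomPair N)
          = ModularCurve.Period.parabolicHoms ℂ (CongruenceSubgroup.Gamma0 N) ℂ :=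
  Fermat.Agent.S21.Assembly.eichlerShimura_of_le N
    (Fermat.Agent.S20.LowerBound.genusFormula_le_finrank N)

end Fermat.Agent.S21
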