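-- Statement S28 (Igusa: the fibres of X₀(N) over ℤ_(ℓ) in characteristic ℓ ∤ N are integral).
-- Program G of the team (integrator helper4).  Chapters:
--   IG/AN  (char-0 analytic inputs: modular equation P0, formal Ramanujan identity P1, modular unit P2, degree bound)
--   IG/PR  (Theorem P at prime level + counting induction: (IRR_N))
--   IG/VAL (Gauss ring, upper bound, (SPAN), charts stay domains after base change)
--   IG/SCH (scheme gluing)
-- assembled in IG/S28Assembly13 (helper13) from the single remaining input (SPAN) = C0PackageII18.span_Ov (helper18).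
import Fermat.Statements.S28
import Fermat.Agent.IG.S28Assembly13
import Fermat.Agent.IG.VAL.C0PackageII18

set_option autoImplicit false
open AlgebraicGeometry CategoryTheory CategoryTheory.Limits ModularCurve ModularCurve.IgusaScheme
noncomputable section
set_option autoImplicit false
open ModularCurve ModularCurve.IgusaScheme

namespace Fermat.Agent.S28

set_option maxHeartbeats 4000000 in
set_option synthInstance.maxHeartbeats 400000 in
theorem result
    (N : ℕ) [NeZero N] (ℓ : ℕ) [Fact ℓ.Prime] (hℓN : ¬ ℓ ∣ N)
    (K : Type) [Field K] [CharP K ℓ] [Algebra ↥(GaloisRep.ratLocalizedAt ℓ) K] :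
    IsIntegral ↑(pullback (igusaTo N ℓ)
      (Spec.map (CommRingCat.ofHom (algebraMap ↥(GaloisRep.ratLocalizedAt ℓ) K)))) :=
  Fermat.Agent.IG.S28Assembly13.s28_of_span N ℓ hℓN
    (fun hdeg hirr γ =>
      Fermat.Agent.IG.VAL.C0PackageII18.span_Ov ℓ N hdeg hirr (γ : ↥(modularFunctionFieldFull N)) γ.2)
    K

end Fermat.Agent.S28
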