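-- Statement S31 (row 30): the Galois representation of a Hecke deformation datum is unramified outside `S`.
-- Program K, route C (helper12): faithful Hecke action on `Λ = Hom_par(Γ₀(N), ℤ)`, the comparison with the
-- Tate module of `J₀(N)` (K2), Eichler–Shimura on the Tate module, Lucas sequences, generator Chebotarev,
-- saturation (Artin–Rees over `ℤ`), and trace rigidity (Burnside + Nakayama) — no Petersson product.
import Fermat.Statements.S31
import Fermat.Agent.ES.ALG31.S31Core12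
import Fermat.Agent.ES.J.S30Final8
import Fermat.Agent.ES.J.KummerSystemJ8

set_option autoImplicit false
variable {p : ℕ} {N : ℕ} [NeZero N] {S : Finset ℕ}
  {𝒪 : Type} [CommRing 𝒪] [IsDomain 𝒪] [IsDiscreteValuationRing 𝒪]
  [IsAdicComplete (IsLocalRing.maximalIdeal 𝒪) 𝒪]
  {θ : CuspForm.heckeAlgebra N 2 (↑S : Set ℕ) →+* IsLocalRing.ResidueField 𝒪}
  {T : Type} [CommRing T] [IsLocalRing T] [IsNoetherianRing T]
  [IsAdicComplete (IsLocalRing.maximalIdeal T) T] [Algebra 𝒪 T] [IsLocalHom (algebraMap 𝒪 T)]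
  [Module.Finite 𝒪 T] [Module.Free 𝒪 T]
open CuspForm CuspForm.HeckeGaloisRepDatum

namespace Fermat.Agent.S31

theorem result (hp : p.Prime)
    (hp𝒪 : (p : 𝒪) ∈ IsLocalRing.maximalIdeal 𝒪) (hpS : p ∈ S)
    (hNS : ∀ q : ℕ, q.Prime → q ∣ N → q ∈ S)
    (H : CuspForm.HeckeGaloisRepDatum N (↑S : Set ℕ) 𝒪 θ T)
    (q : ℕ) (hq : q.Prime) (hqS : q ∉ S) :
    H.ρ.IsUnramifiedAt q :=
  haveI : Fact p.Prime := ⟨hp⟩
  Fermat.Agent.ES.ALG31.S31Core12.isUnramifiedAt_of_inputs hp𝒪 hpS hNS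
    (Fermat.Agent.ES.J.S30Final8.k1 p N)
    (Fermat.Agent.ES.J.K2Final11.k2 (Fermat.Agent.ES.J.KummerSystemJ8.kummerSystemJ p N)
      (Fermat.Agent.ES.J.KummerSystemJ8.heckeCompatJ p N))
    H q hq hqS

end Fermat.Agent.S31
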