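-- Statement S32 (row 31): the Hecke–Galois representation `H.ρ` is flat at `p` (`p ∤ N`, `p` odd)
-- (Programme V, chapter V32 of helper18, trunk of helper27).
-- The proof is `S32Asm18.isFlatAt_of_hasXiChart`: every `V ⧸ I V` is an equivariant quotient of a
-- Galois-stable subgroup of `J₀(N)[p^m]^r` (Hecke algebra reduced, Boston–Lenstra–Ribet, Artin–Rees), and
-- Hopf orders are closed under products, subobjects and quotients; the geometric input is the one of S19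
-- (`HgeoAsm21.hgeo` from (B1) `GenusLe12.genusLe` and (G3) `XiCInputV9.xiCInput`).
import Fermat.Statements.S32
import Fermat.Agent.ES.V32.S32Asm18
import Fermat.Agent.ES.V19.XiInstV29
import Fermat.Agent.ES.V19.GenusLe12
import Fermat.Agent.ES.V19.XiCInputV9

set_option autoImplicit false
variable {p : ℕ} {N : ℕ} [NeZero N] {S : Finset ℕ}
  {𝒪 : Type} [CommRing 𝒪] [IsDomain 𝒪] [IsDiscreteValuationRing 𝒪]
  [IsAdicComplete (IsLocalRing.maximalIdeal 𝒪) 𝒪]
  {θ : CuspForm.heckeAlgebra N 2 (↑S : Set ℕ) →+* IsLocalRing.ResidueField 𝒪}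
  {T : Type} [CommRing T] [IsLocalRing T] [IsNoetherianRing T]
  [IsAdicComplete (IsLocalRing.maximalIdeal T) T] [Algebra 𝒪 T] [IsLocalHom (algebraMap 𝒪 T)]
  [Module.Finite 𝒪 T] [Module.Free 𝒪 T]
open CuspForm CuspForm.HeckeGaloisRepDatum

namespace Fermat.Agent.S32

theorem result
    [Finite (IsLocalRing.ResidueField 𝒪)] [CharZero 𝒪]
    (hp : p.Prime) (hp2 : p ≠ 2) (hp𝒪 : (p : 𝒪) ∈ IsLocalRing.maximalIdeal 𝒪) (hpN : ¬ p ∣ N)
    (hpS : p ∈ S) (hNS : ∀ q : ℕ, q.Prime → q ∣ N → q ∈ S)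
    (H : CuspForm.HeckeGaloisRepDatum N (↑S : Set ℕ) 𝒪 θ T) :
    H.ρ.IsFlatAt p :=
  Fermat.Agent.ES.V32.S32Asm18.isFlatAt_of_hasXiChart
    (Fermat.Agent.ES.V19.HgeoAsm21.hgeo
      (Fermat.Agent.ES.V19.XiInstV29.xiInput_of Fermat.Agent.ES.V19.GenusLe12.genusLe
        Fermat.Agent.ES.V19.XiCInputV9.xiCInput))
    hp hp2 hp𝒪 hpN hpS hNS H

end Fermat.Agent.S32
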