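-- Statement S33 (row 32): the Hecke–Galois representation `H.ρ` is ordinary at `p` when `p ∥ N`, `p` odd
-- and the residual representation is ordinary at `p` (Programme W, spine `W33_SPINE8`, trunk of helper27).
-- The proof is the composition of the four chapter exits
--   ALG  `AlgExit26.isOrdinaryAt_of_coinvUnbounded`  (ordinary ⇐ unbounded unramified coinvariants),
--   ASM  `AsmExit8.coinvUnbounded_of_hasConnOrder`   (⇐ connected orders of every exponent in `J₀(N')[p^m]`),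
--   TOP  `TopW19.hasConnOrder_of_hasNodalChart`      (⇐ the nodal two-chart model of `X₀(N')` at `p ∥ N'`),
--   GEO  `GeoW23.hasNodalChart` at `GeoLeaves23.geoInput_four` (the Deligne–Rapoport model, base `(4, 8)`),
-- assembled in `S33OfGeo19.s33_of_geoInput`.
import Fermat.Statements.S33
import Fermat.Agent.ES.W33.S33OfGeo19
import Fermat.Agent.ES.W33.GeoLeaves23

set_option autoImplicit false
variable {p : ℕ} {N : ℕ} [NeZero N] {S : Finset ℕ}
  {𝒪 : Type} [CommRing 𝒪] [IsDomain 𝒪] [IsDiscreteValuationRing 𝒪]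
  [IsAdicComplete (IsLocalRing.maximalIdeal 𝒪) 𝒪]
  {θ : CuspForm.heckeAlgebra N 2 (↑S : Set ℕ) →+* IsLocalRing.ResidueField 𝒪}
  {T : Type} [CommRing T] [IsLocalRing T] [IsNoetherianRing T]
  [IsAdicComplete (IsLocalRing.maximalIdeal T) T] [Algebra 𝒪 T] [IsLocalHom (algebraMap 𝒪 T)]
  [Module.Finite 𝒪 T] [Module.Free 𝒪 T]
open CuspForm CuspForm.HeckeGaloisRepDatum

namespace Fermat.Agent.S33

theorem result
    [Finite (IsLocalRing.ResidueField 𝒪)] [CharZero 𝒪]
    (hp : p.Prime) (hp2 : p ≠ 2) (hp𝒪 : (p : 𝒪) ∈ IsLocalRing.maximalIdeal 𝒪) (hN : p ∣ N ∧ ¬ p ^ 2 ∣ N)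
    (hNS : ∀ q : ℕ, q.Prime → q ∣ N → q ∈ S)
    (H : CuspForm.HeckeGaloisRepDatum N (↑S : Set ℕ) 𝒪 θ T)
    (hres : (GaloisRepAdic.ofResidualGaloisRep H.ρ.residual).IsOrdinaryAt p) :
    H.ρ.IsOrdinaryAt p :=
  Fermat.Agent.ES.W33.S33OfGeo19.s33_of_geoInput Fermat.Agent.ES.W33.GeoLeaves23.geoInput_four
    hp hp2 hp𝒪 hN hNS H hres

end Fermat.Agent.S33
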