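import Fermat.Statements.S34
import Fermat.Agent.ES.N34.S34OfTors12
import Fermat.Agent.ES.N34.TorsionInertia12
import Fermat.Agent.ES.N34.LvlN17
import Fermat.Agent.ES.N34.DescN1
import Fermat.Agent.ES.N34.NumN13
import Fermat.Agent.ES.N34.ModelEnd4

set_option autoImplicit false
set_option autoImplicit false
open IsLocalRing
open CuspForm CuspForm.HeckeGaloisRepDatum

namespace Fermat.Agent.S34

/-- **NUM** (`IfaceN4.NumStep`) from MODEL (`ModelEnd4.modelInput_four/_nine`) via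
`NumN13.numStep_of_model` (Program N, chain TOP ⇐ LVL ⇐ DESC ⇐ NUM ⇐ MODEL). -/
theorem numStep12 : Fermat.Agent.ES.N34.IfaceN4.NumStep :=
  Fermat.Agent.ES.N34.NumN13.numStep_of_model
    (fun q M' _ _ A hq hqM h2 h4 hA =>
      Fermat.Agent.ES.N34.ModelEnd4.modelInput_four q M' A hq hqM h2 h4 hA)
    (fun M' _ A h2 h9 hA =>
      Fermat.Agent.ES.N34.ModelEnd4.modelInput_nine M' A h2 h9 hA)

theorem result
    {𝒪 : Type} [CommRing 𝒪] [IsDomain 𝒪] [IsDiscreteValuationRing 𝒪]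
    [IsAdicComplete (maximalIdeal 𝒪) 𝒪] [Finite (ResidueField 𝒪)] [CharZero 𝒪]
    {p : ℕ} (hp : p.Prime) (hp𝒪 : (p : 𝒪) ∈ maximalIdeal 𝒪)
    {N : ℕ} [NeZero N] {S : Finset ℕ} (hpS : p ∈ S) (hNS : ∀ q : ℕ, q.Prime → q ∣ N → q ∈ S)
    {θ : CuspForm.heckeAlgebra N 2 (↑S : Set ℕ) →+* ResidueField 𝒪}
    {T : Type} [CommRing T] [IsLocalRing T] [IsNoetherianRing T]
    [IsAdicComplete (maximalIdeal T) T] [Algebra 𝒪 T] [IsLocalHom (algebraMap 𝒪 T)]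
    [Module.Finite 𝒪 T] [Module.Free 𝒪 T]
    (H : CuspForm.HeckeGaloisRepDatum N (↑S : Set ℕ) 𝒪 θ T)
    (q : ℕ) (hq : q.Prime) (hqp : q ≠ p) (hqN : q ∣ N) (hq2 : ¬ q ^ 2 ∣ N) :
    H.ρ.IsUnipotentOnInertiaAt q := by
  exact Fermat.Agent.ES.N34.S34OfTors12.s34_of_inertiaTors
    (Fermat.Agent.ES.N34.IfaceN4.inertiaTors_of_chain
      Fermat.Agent.ES.N34.TorsionInertia12.topStep
      Fermat.Agent.ES.N34.LvlN17.hlvl
      Fermat.Agent.ES.N34.DescN1.descStep_chain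
      numStep12)
    hp hp𝒪 hpS hNS H q hq hqp hqN hq2

end Fermat.Agent.S34
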