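-- Statement S44 (row 38): level lowering at `p` for a conductor level (Programme X, spine v3).
-- `Fermat.Agent.S44.result` = `S44Five14.s44_of_five` fed with the five chapter exits:
-- (Off) `OffChapter12.offChapter_of` [(NC) `NodeCoordAsm17.ncChapter` + (SC) `GoodLiftOf18.smoothCoords_of_epsMatch`], (X-a) `XaFinal15.xaChapter`, (QH) `EigQFinal8.eigQ_of_iota`,
-- (QP) `QPChapter26.qpChapter`, Rem4 `RemFour23.rem4`.
import Fermat.Statements.S44
import Fermat.Agent.ES.X44.S44Five14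
import Fermat.Agent.ES.X44.OffChapter12
import Fermat.Agent.ES.X44.NodeCoordAsm17
import Fermat.Agent.ES.X44.GoodLiftOf18
import Fermat.Agent.ES.X44.EpsMatch29
import Fermat.Agent.ES.X44.XaFinal15
import Fermat.Agent.ES.X44.EigQFinal8
import Fermat.Agent.ES.X44.QPChapter26
import Fermat.Agent.ES.X44.RemFour23

set_option autoImplicit false
open WeierstrassCurve WeierstrassCurve.Affine WeierstrassCurve.Affine.Point
open CuspForm ModularFormClass UpperHalfPlane
open FreyPackage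

namespace Fermat.Agent.S44

/-- (NC). -/
theorem ncChapter : Fermat.Agent.ES.X44.OffChapter12.NCChapter :=
  Fermat.Agent.ES.X44.NodeCoordAsm17.ncChapter

/-- (SC). -/
theorem scChapter : Fermat.Agent.ES.X44.OffChapter12.SCChapter :=
  fun M' _ p _ hpM h4M A hA hp2 =>
    Fermat.Agent.ES.X44.GoodLiftOf18.smoothCoords_of_epsMatch hp2
      (Fermat.Agent.ES.X44.EpsMatch29.epsMatch M' p A hpM h4M hA hp2)

/-- (X-a). -/
theorem xaChapter : Fermat.Agent.ES.X44.GeoAsm14.XaChapter :=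
  Fermat.Agent.ES.X44.XaFinal15.xaChapter

/-- (QH). -/
theorem qhChapter : Fermat.Agent.ES.X44.GeoAsm14.QHChapter := by
  intro P _ M' _ _ hpM h4M A hA a good ι _ _ hS hT _ hR
  have hp5 := P.hp5
  have hp2 : P.p ≠ 2 := by omega
  exact Fermat.Agent.ES.X44.EigQFinal8.eigQ_of_iota M' P.p hpM h4M A hA hp2 ι
    (Fermat.Agent.ES.X44.RChapter19.nsmul_Ep P) a good hS hT hR

/-- Rem4. -/
theorem rem4Stmt : Fermat.Agent.ES.X44.Old3Asm14.Rem4Stmt :=
  fun P m _ _ W hW hirr hm hpm ι hι hdiv =>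
    Fermat.Agent.ES.X44.RemFour23.rem4 P m W hW hirr hm hpm ι hι hdiv

theorem result (P : FreyPackage) {N : ℕ} (hcond : P.IsConductorLevel N) (hpN : P.p ∣ N) (hirr : GaloisRepIsIrreducible (K := AlgebraicClosure ℚ) ℚ P.freyCurve P.p) (hmod : P.ModularRepOfLevel N) : ∃ M : ℕ, M ∣ N ∧ ¬ P.p ∣ M ∧ P.ModularRepOfLevel M :=
  Fermat.Agent.ES.X44.S44Five14.s44_of_five
    (Fermat.Agent.ES.X44.OffChapter12.offChapter_of ncChapter scChapter) xaChapter qhChapter
    Fermat.Agent.ES.X44.QPChapter26.qpChapter rem4Stmt P hcond hpN hirr hmod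

end Fermat.Agent.S44
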