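-- Statement S48 (row 43): Deligne–Serre for weight-one eigenforms (Programme R, trunk of helper27).
-- The proof is the final plug `S48Plug13.s48_of_props` applied to the three chapter exports:
-- G4 (`G4LevelsClose7.spTorsExport`), G5 (`KumDictFinal18.dictExport`, `KumHeckeExport9.heckeEquivExport`).
import Fermat.Statements.S48
import Fermat.Agent.ES.R48.S48Plug13
import Fermat.Agent.ES.R48.G4LevelsClose7
import Fermat.Agent.ES.R48.KumDictFinal18
import Fermat.Agent.ES.R48.KumHeckeExport9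

set_option autoImplicit false
set_option autoImplicit false
open CongruenceSubgroup
open scoped MatrixGroups
local notation "Γℚ" => (AlgebraicClosure ℚ ≃ₐ[ℚ] AlgebraicClosure ℚ)
open DeligneSerre

namespace Fermat.Agent.S48

theorem result
    (N : ℕ) [NeZero N] (ε : DirichletCharacter ℂ N) (f : CuspForm (Gamma1 N) 1)
    (hf₁ : ModularFormClass.qCoeff f 1 = 1)
    (hT : ∀ p : ℕ, p.Prime → ¬ p ∣ N → ∀ n : ℕ,
        ModularFormClass.qCoeff f (p * n) +
            ε (p : ZMod N) * (if p ∣ n then ModularFormClass.qCoeff f (n / p) else 0) =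
          ModularFormClass.qCoeff f p * ModularFormClass.qCoeff f n) :
    ∃ ρ : Γℚ →* GL (Fin 2) ℂ, GaloisFactorsThroughFiniteLevel ρ ∧
      (Deformation.matrixRepresentation ρ).IsIrreducible ∧
      ∀ p : ℕ, p.Prime → ¬ p ∣ N →
        ∀ A : ValuationSubring (AlgebraicClosure ℚ), A.LiesOverPrime p →
          (∀ σ ∈ A.inertiaSubgroupIn ℚ, ρ σ = 1) ∧
          ∀ σ : Γℚ, A.IsFrobeniusAt σ p →
            ((ρ σ : GL (Fin 2) ℂ) : Matrix (Fin 2) (Fin 2) ℂ).trace = ModularFormClass.qCoeff f p ∧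
            ((ρ σ : GL (Fin 2) ℂ) : Matrix (Fin 2) (Fin 2) ℂ).det = ε (p : ZMod N) := by
  exact Fermat.Agent.ES.R48.S48Plug13.s48_of_props
    Fermat.Agent.ES.R48.G4LevelsClose7.spTorsExport
    Fermat.Agent.ES.R48.KumDictFinal18.dictExport
    Fermat.Agent.ES.R48.KumHeckeExport9.heckeEquivExport N ε f hf₁ hT

end Fermat.Agent.S48
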