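-- Statement S51 (row 45): a semistable elliptic curve over ℚ has an irreducible mod-3 or mod-5
-- representation.
import Fermat.Statements.S51
import Fermat.Agent.S51.GaloisDescent
import Fermat.Agent.S51.NotSemistable
import Fermat.Agent.S51.X015
import Fermat.Agent.S51.RankZero

set_option autoImplicit false
open WeierstrassCurve WeierstrassCurve.Affine WeierstrassCurve.Affine.Point
open CuspForm ModularFormClass UpperHalfPlane
open WeierstrassCurve

namespace Fermat.Agent.S51

theorem result (W : WeierstrassCurve ℤ) (hΔ : W.Δ ≠ 0) (hW : W.IsSemistableModel) : W.ModRepIsIrreducible 3 ∨ W.ModRepIsIrreducible 5 := by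
  by_contra hcon
  rw [not_or] at hcon
  obtain ⟨h3, h5⟩ := hcon
  unfold WeierstrassCurve.ModRepIsIrreducible at h3 h5
  have hΔq : (W.map (Int.castRingHom ℚ)).Δ = (W.Δ : ℚ) := by
    rw [WeierstrassCurve.map_Δ]; rfl
  have hc₄q : (W.map (Int.castRingHom ℚ)).c₄ = (W.c₄ : ℚ) := by
    rw [WeierstrassCurve.map_c₄]; rfl
  have hΔne : (W.map (Int.castRingHom ℚ)).Δ ≠ 0 := by
    rw [hΔq]; exact_mod_cast hΔ
  have hΔne' : (W.Δ : ℚ) ≠ 0 := by exact_mod_cast hΔ
  obtain ⟨x, hx1, hx2⟩ :=
    Galois.rational_root_of_not_irreducible_three (W.map (Int.castRingHom ℚ)) hΔne h3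
  obtain ⟨t, ht⟩ :=
    Galois.rational_param_of_not_irreducible_five (W.map (Int.castRingHom ℚ)) hΔne h5
  obtain ⟨s, hs, -⟩ := j_param_three (W := W.map (Int.castRingHom ℚ)) hx1 hx2
  rw [hΔq, hc₄q] at hs ht
  have hs0 : s ≠ 0 := by
    rintro rfl
    apply hΔne'
    have : (W.Δ : ℚ) * 729 = 0 := by linear_combination -hs
    simpa using this
  have ht0 : t ≠ 0 := by
    rintro rfl
    apply hΔne'
    have : (W.Δ : ℚ) * 125 = 0 := by linear_combination -ht
    simpa using this
  have hst : (s + 27) * (s + 3) ^ 3 * t = (t ^ 2 + 10 * t + 5) ^ 3 * s := by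
    have : (W.Δ : ℚ) * ((s + 27) * (s + 3) ^ 3 * t - (t ^ 2 + 10 * t + 5) ^ 3 * s) = 0 := by
      linear_combination s * ht - t * hs
    rcases mul_eq_zero.mp this with h0 | h0
    · exact absurd h0 hΔne'
    · linear_combination h0
  exact not_semistable_of_j W hΔ hW t (X015.t_values RankZero.rank_zero_15a s t hs0 ht0 hst) ht

end Fermat.Agent.S51
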