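-- S52 (the 3–5 switch): Programme U.  `result` = `S52Top9.s52_of_RS` applied to the Rubin–Silverberg package
-- (`RSPackage24.rsPackage_of_line` fed with `RSIdentity29.kc4_line` / `kc6_line`).
import Fermat.Statements.S52
import Fermat.Agent.ES.U52.S52Top9
import Fermat.Agent.ES.U52.RSIdentity29
import Fermat.Agent.ES.U52.RSPackage24

set_option autoImplicit false
open WeierstrassCurve WeierstrassCurve.Affine WeierstrassCurve.Affine.Point
open CuspForm ModularFormClass UpperHalfPlane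
open WeierstrassCurve

namespace Fermat.Agent.S52

theorem result (W : WeierstrassCurve ℤ) (hΔ : W.Δ ≠ 0) (hW : W.IsSemistableModel) (h5 : W.ModRepIsIrreducible 5) : ∃ W' : WeierstrassCurve ℤ, W'.Δ ≠ 0 ∧ W'.IsSemistableModel ∧ W'.ModRepIsIrreducible 3 ∧ ∀ ℓ : ℕ, ℓ.Prime → W.IsGoodPrimeFor ℓ → W'.IsGoodPrimeFor ℓ → ℓ ≠ 5 → (5 : ℤ) ∣ (W'.apOfModel ℓ - W.apOfModel ℓ) :=
  Fermat.Agent.ES.U52.S52Top9.s52_of_RS
    (Fermat.Agent.ES.U52.RSPackage24.rsPackage_of_line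
      (fun Xp Yp Tp => Fermat.Agent.ES.U52.RSIdentity29.kc4_line Xp Yp Tp)
      (fun Xp Yp Tp => Fermat.Agent.ES.U52.RSIdentity29.kc6_line Xp Yp Tp))
    W hΔ hW h5

end Fermat.Agent.S52
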