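-- Statement S57 (row 51): patching descent step.
-- The statement below is byte-identical to the frozen statement (Fermat/Statements/S57.lean).
import Fermat.Statements.S57
import Fermat.Agent.S57.AssChain
import Fermat.Agent.S57.RegularFree
import Fermat.Agent.S57.MaxIdeal
import Fermat.Agent.S57.PatchingRegular
import Fermat.Agent.S57.Endgame

set_option autoImplicit false
open Algebra Algebra.PatchingLevel

namespace Fermat.Agent.S57

theorem result
    {𝒪 : Type} [CommRing 𝒪] [IsDomain 𝒪] [IsDiscreteValuationRing 𝒪]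
    {r : ℕ} {R : Type} [CommRing R] [Algebra 𝒪 R]
    {M : Type} [AddCommGroup M] [Module R M] [Nontrivial M]
    (L : Algebra.PatchingLevel 𝒪 r R M ⊥) :
    Module.Free R M ∧ Module.annihilator R M = ⊥ ∧
      RingHom.ker L.ψ = Ideal.span (Set.range fun i : Fin r => L.φ (MvPowerSeries.X i)) := by
  obtain ⟨ϖ, hϖ⟩ := IsDiscreteValuationRing.exists_irreducible 𝒪
  obtain ⟨rs, hlen, hmem, hreg⟩ := exists_isRegular_patching L
  have hfree : Module.Free (MvPowerSeries (Fin r) 𝒪) L.N :=
    free_of_assChainStatement.{0}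
      (fun B _ _ _ N _ _ _ zs h1 h2 P hP =>
        le_ringKrullDim_quotient_of_mem_associatedPrimes zs h1 h2 P hP)
      _ (ofList_X_C_eq_maximalIdeal r hϖ) rs hreg.toIsWeaklyRegular hmem (by simp [hlen])
  exact result_of_free L

end Fermat.Agent.S57
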